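import Mathlib

/-!
# S25 / DICT (helper26): transport of module properties along ring isomorphisms

* `invertible_of_semilinear` : `Module.Invertible` is invariant under a bijective ring
  homomorphism `θ : R →+* S` together with a `θ`-semilinear additive equivalence.
-/

set_option autoImplicit false
set_option linter.style.haveILetI false

namespace Fermat.Agent.S25.H26

/-- Transport of invertibility along a bijective ring homomorphism and a semilinear additive
equivalence. -/
theorem invertible_of_semilinear {R S : Type*} [CommRing R] [CommRing S] (θ : R →+* S)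
    (hθ : Function.Bijective θ) {N : Type*} [AddCommGroup N] [Module S N]
    [hN : Module.Invertible S N] {N' : Type*} [AddCommGroup N'] [Module R N'] (ψ : N ≃+ N')
    (hψ : ∀ (r : R) (n : N), ψ (θ r • n) = r • ψ n) : Module.Invertible R N' := by
  let E : R ≃+* S := RingEquiv.ofBijective θ hθ
  letI algSR : Algebra S R := E.symm.toRingHom.toAlgebra
  letI : Module S N' := Module.compHom N' E.symm.toRingHom
  haveI : IsScalarTower S R N' := ⟨fun s r n => by
    change (E.symm s * r) • n = E.symm s • (r • n)
    rw [mul_smul]⟩
  have hsmul : ∀ (s : S) (n : N'), s • n = E.symm s • n := fun _ _ => rfl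
  let f : N →ₗ[S] N' :=
    { toFun := ψ
      map_add' := ψ.map_add
      map_smul' := fun s n => by
        have := hψ (E.symm s) n
        simp only [RingHom.id_apply]
        rw [hsmul, ← this]
        congr 2
        exact (E.apply_symm_apply s).symm }
  have hbot : ∀ x : (⊥ : Submonoid S), (x : S) = 1 := fun x => Submonoid.mem_bot.mp x.2
  haveI : IsLocalization (⊥ : Submonoid S) R := by
    haveI : IsLocalization (⊥ : Submonoid S) S :=
      IsLocalization.of_le_isUnit (fun x hx => by
        rw [Submonoid.mem_bot.mp hx]; exact isUnit_one)
    exact IsLocalization.isLocalization_of_algEquiv (⊥ : Submonoid S)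
      ({ E.symm with commutes' := fun s => rfl } : S ≃ₐ[S] R)
  haveI : IsLocalizedModule (⊥ : Submonoid S) f := by
    refine IsLocalizedModule.mk (fun x => ?_) (fun y => ?_) (fun {x₁ x₂} h => ?_)
    · rw [hbot x, map_one]
      exact isUnit_one
    · refine ⟨(ψ.symm y, 1), ?_⟩
      change (1 : (⊥ : Submonoid S)) • y = ψ (ψ.symm y)
      rw [one_smul, AddEquiv.apply_symm_apply]
    · refine ⟨1, ?_⟩
      rw [one_smul, one_smul]
      exact ψ.injective h
  exact Module.Invertible.of_isLocalization (⊥ : Submonoid S) f

end Fermat.Agent.S25.H26
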