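import Fermat.Agent.S25.H26.AffineSections
import Fermat.Agent.S25.H26.Transport
import Fermat.Agent.S25.H445.InvertibleAffine

/-!
# S25 / DICT (helper26): sections of an invertible module over an affine open

`X` a scheme, `V ⊆ X` an affine open, `M` an invertible `𝒪_X`-module (Prelude sense).
Then `Γ(M, V)` is an invertible module over any ring `R'` identified with `Γ(X, V)`.
-/

set_option autoImplicit false
set_option linter.style.haveILetI false
universe u
open CategoryTheory CategoryTheory.Limits AlgebraicGeometry TopologicalSpace Opposite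

namespace Fermat.Agent.S25.H26

noncomputable section

variable {X : Scheme.{u}} {V : X.Opens} (hV : IsAffineOpen V) (M : X.Modules)

/-- Invertibility is stable under restriction along an open immersion. -/
theorem isInvertible_restrict {Y : Scheme.{u}} (j : Y ⟶ X) [IsOpenImmersion j]
    (hM : Scheme.Modules.IsInvertible M) : Scheme.Modules.IsInvertible (M.restrict j) := by
  have h := hM.pullback j
  refine ⟨fun x => ?_⟩
  obtain ⟨U, hxU, ⟨e⟩⟩ := h.1 x
  exact ⟨U, hxU, ⟨(Scheme.Modules.pullback U.ι).mapIso
    ((Scheme.Modules.restrictFunctorIsoPullback j).app M) ≪≫ e⟩⟩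

/-- The identification `Γ(M, fromSpec '' ⊤) ≃+ Γ(M, V)`. -/
def topSecEquiv : Γ(M, hV.fromSpec ''ᵁ ⊤) ≃+ Γ(M, V) where
  toFun := resSec M (fromSpec_image_top hV).ge
  invFun := resSec M (fromSpec_image_top hV).le
  left_inv _ := (resSec_resSec M _ _ _).trans (resSec_self M _ _)
  right_inv _ := (resSec_resSec M _ _ _).trans (resSec_self M _ _)
  map_add' s t := resSec_add M _ s t

/-- `topSecEquiv` is linear over `Γ(X, V)` (acting on the source through `Spec Γ(X, V)`). -/
lemma topSecEquiv_smul (r : Γ(X, V)) (x : Γ(M.restrict hV.fromSpec, ⊤)) :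
    topSecEquiv hV M (r • x) = r • topSecEquiv hV M x := by
  have h := smul_restrict_fromSpec hV M ⊤ r x
  have h4 : resFun (fromSpec_image_top hV).ge (resFun (fromSpec_image_le hV ⊤) r) = r := by
    simp only [resFun]
    rw [← CommRingCat.comp_apply, ← Functor.map_comp]
    have : (homOfLE (fromSpec_image_le hV ⊤)).op ≫ (homOfLE (fromSpec_image_top hV).ge).op =
        𝟙 (op V) := Subsingleton.elim _ _
    rw [this, X.presheaf.map_id]
    rfl
  change resSec M (fromSpec_image_top hV).ge (r • x) = r • resSec M (fromSpec_image_top hV).ge x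
  rw [h]
  exact (resSec_smul M _ _ _).trans (by rw [h4])

include hV in
/-- **Sections of an invertible module over an affine open form an invertible module**, over
any ring `R'` identified with `Γ(X, V)` by a bijective ring homomorphism `θ`, the module `N'`
being identified with `Γ(M, V)` by a `θ`-semilinear additive equivalence. -/
theorem invertible_of_sections (hM : Scheme.Modules.IsInvertible M) {R' N' : Type*}
    [CommRing R'] [AddCommGroup N'] [Module R' N'] (θ : R' →+* Γ(X, V))
    (hθ : Function.Bijective θ) (e : Γ(M, V) ≃+ N') (he : ∀ r s, e (θ r • s) = r • e s) :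
    Module.Invertible R' N' := by
  have hF : Scheme.Modules.IsInvertible (M.restrict hV.fromSpec) :=
    isInvertible_restrict M hV.fromSpec hM
  haveI hinv : Module.Invertible Γ(X, V)
      ((moduleSpecΓFunctor (R := Γ(X, V))).obj (M.restrict hV.fromSpec)) :=
    Fermat.Agent.S25.H445.invertible_Γ_of_isInvertible hF
  refine invertible_of_semilinear θ hθ
    (N := ((moduleSpecΓFunctor (R := Γ(X, V))).obj (M.restrict hV.fromSpec)))
    ((topSecEquiv hV M).trans e) (fun r n => ?_)
  change e (topSecEquiv hV M (θ r • n)) = r • e (topSecEquiv hV M n)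
  rw [← he]
  congr 1
  exact topSecEquiv_smul hV M (θ r) n

end

end Fermat.Agent.S25.H26
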