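import Mathlib

/-!
# S25 / DICT (helper26): sections of a quasi-coherent module over an affine open

`X` a scheme, `V ⊆ X` an affine open, `M` a quasi-coherent `𝒪_X`-module, `f ∈ Γ(X, V)`.
The restriction `Γ(M, V) → Γ(M, D(f))` is the localisation at `f`, in elementary form:

* `exists_pow_smul_eq_res` : every section over `D(f)` times a power of `f` extends to `V`;
* `exists_pow_smul_eq_zero` : a section over `V` vanishing on `D(f)` is killed by a power of `f`.

The proof transports Mathlib's statement for `Spec Γ(X, V)` along `hV.fromSpec`.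
-/

set_option autoImplicit false
set_option linter.style.haveILetI false
universe u
open CategoryTheory CategoryTheory.Limits AlgebraicGeometry TopologicalSpace Opposite

namespace Fermat.Agent.S25.H26

noncomputable section

variable {X : Scheme.{u}} {V : X.Opens} (hV : IsAffineOpen V)

lemma fromSpec_image_le (W : (Spec Γ(X, V)).Opens) : hV.fromSpec ''ᵁ W ≤ V := by
  have := Scheme.Hom.image_le_opensRange hV.fromSpec W
  rwa [hV.opensRange_fromSpec] at this

lemma fromSpec_image_top : hV.fromSpec ''ᵁ ⊤ = V := by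
  rw [Scheme.Hom.image_top_eq_opensRange, hV.opensRange_fromSpec]

/-- The key ring identity: the function `r ∈ Γ(X, V)`, viewed on `Spec Γ(X, V)`, restricted to `W`
and transported to `X` along `fromSpec`, is the restriction of `r`. -/
lemma appIso_inv_res_ΓSpecIso_inv (W : (Spec Γ(X, V)).Opens) (r : Γ(X, V)) :
    (hV.fromSpec.appIso W).inv
        ((Spec Γ(X, V)).presheaf.map (homOfLE (le_top : W ≤ ⊤)).op
          ((Scheme.ΓSpecIso Γ(X, V)).inv r)) =
      X.presheaf.map (homOfLE (fromSpec_image_le hV W)).op r := by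
  have h1 : hV.fromSpec.app V ≫ (Spec Γ(X, V)).presheaf.map
      (homOfLE (show W ≤ hV.fromSpec ⁻¹ᵁ V by rw [hV.fromSpec_preimage_self]; exact le_top)).op =
      (Scheme.ΓSpecIso Γ(X, V)).inv ≫
        (Spec Γ(X, V)).presheaf.map (homOfLE (le_top : W ≤ ⊤)).op := by
    rw [hV.fromSpec_app_self, Category.assoc, ← Functor.map_comp]
    rfl
  have h2 : X.presheaf.map (homOfLE (fromSpec_image_le hV W)).op ≫ (hV.fromSpec.appIso W).hom =
      hV.fromSpec.app V ≫ (Spec Γ(X, V)).presheaf.map
        (homOfLE (show W ≤ hV.fromSpec ⁻¹ᵁ V by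
          rw [hV.fromSpec_preimage_self]; exact le_top)).op := by
    rw [Scheme.Hom.appIso_hom, ← Category.assoc, Scheme.Hom.naturality, Category.assoc,
      ← Functor.map_comp]
    rfl
  have h3 : (Scheme.ΓSpecIso Γ(X, V)).inv ≫
        (Spec Γ(X, V)).presheaf.map (homOfLE (le_top : W ≤ ⊤)).op ≫ (hV.fromSpec.appIso W).inv =
      X.presheaf.map (homOfLE (fromSpec_image_le hV W)).op := by
    rw [← Category.assoc, ← h1, ← h2, Category.assoc, Iso.hom_inv_id, Category.comp_id]
  exact congr($h3 r)

variable (M : X.Modules)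

/-- The action of `r ∈ Γ(X, V)` on the sections over `W` of the restriction of `M` to
`Spec Γ(X, V)` is the action of the restriction of `r` on `Γ(M, fromSpec '' W)`. -/
lemma smul_restrict_fromSpec (W : (Spec Γ(X, V)).Opens) (r : Γ(X, V))
    (x : Γ(M.restrict hV.fromSpec, W)) :
    r • x = (show Γ(M, hV.fromSpec ''ᵁ W) from
      (X.presheaf.map (homOfLE (fromSpec_image_le hV W)).op r) •
        (show Γ(M, hV.fromSpec ''ᵁ W) from x)) := by
  rw [Scheme.Modules.smul_Spec_def]
  rw [← appIso_inv_res_ΓSpecIso_inv hV W r]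
  rfl

/-- Restriction of sections, as a function. -/
abbrev resSec {U U' : X.Opens} (h : U' ≤ U) (s : Γ(M, U)) : Γ(M, U') :=
  M.presheaf.map (homOfLE h).op s

/-- Restriction of functions, as a function. -/
abbrev resFun {U U' : X.Opens} (h : U' ≤ U) (r : Γ(X, U)) : Γ(X, U') :=
  X.presheaf.map (homOfLE h).op r

lemma resSec_resSec {U U' U'' : X.Opens} (h : U' ≤ U) (h' : U'' ≤ U') (s : Γ(M, U)) :
    resSec M h' (resSec M h s) = resSec M (h'.trans h) s := by
  simp only [resSec]
  rw [← ConcreteCategory.comp_apply, ← Functor.map_comp]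
  rfl

lemma resSec_self {U : X.Opens} (h : U ≤ U) (s : Γ(M, U)) : resSec M h s = s := by
  simp only [resSec]
  have : (homOfLE h).op = 𝟙 (op U) := Subsingleton.elim _ _
  rw [this, M.presheaf.map_id]
  rfl

lemma resSec_smul {U U' : X.Opens} (h : U' ≤ U) (r : Γ(X, U)) (s : Γ(M, U)) :
    resSec M h (r • s) = resFun h r • resSec M h s :=
  M.val.map_smul (homOfLE h).op r s

lemma resSec_add {U U' : X.Opens} (h : U' ≤ U) (s t : Γ(M, U)) :
    resSec M h (s + t) = resSec M h s + resSec M h t :=
  map_add _ _ _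

lemma resSec_zero {U U' : X.Opens} (h : U' ≤ U) : resSec M h (0 : Γ(M, U)) = 0 :=
  map_zero _

section Localization

variable [hM : M.IsQuasicoherent] (f : Γ(X, V))

include hM in
/-- Mathlib's localisation statement for the restriction of `M` to `Spec Γ(X, V)`. -/
lemma isLocalizedModule_restrict_fromSpec :
    IsLocalizedModule (.powers f)
      ((modulesSpecToSheaf.obj (M.restrict hV.fromSpec)).obj.map
        (PrimeSpectrum.basicOpen f).leTop.op).hom := by
  have hq : (M.restrict hV.fromSpec).IsQuasicoherent :=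
    Scheme.Modules.isQuasicoherent_restrictFunctor hV.fromSpec M
  have hiso : IsIso (M.restrict hV.fromSpec).fromTildeΓ :=
    Scheme.Modules.isIso_fromTildeΓ_of_isQuasicoherent _
  exact (isIso_fromTildeΓ_iff_isLocalizing _).mp hiso f

include hV hM in
/-- **Localisation, surjectivity part**: a section over `D(f)` times a power of `f` extends to
the affine open `V`. -/
theorem exists_pow_smul_eq_res (t : Γ(M, X.basicOpen f)) :
    ∃ (n : ℕ) (s : Γ(M, V)),
      resSec M (X.basicOpen_le f) s = (resFun (X.basicOpen_le f) f) ^ n • t := by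
  have hloc := isLocalizedModule_restrict_fromSpec hV M f
  have e₁ : hV.fromSpec ''ᵁ PrimeSpectrum.basicOpen f = X.basicOpen f :=
    hV.fromSpec_image_basicOpen f
  have e₂ : hV.fromSpec ''ᵁ ⊤ = V := fromSpec_image_top hV
  let y : Γ(M, hV.fromSpec ''ᵁ PrimeSpectrum.basicOpen f) := resSec M e₁.le t
  obtain ⟨⟨x, ⟨_, n, rfl⟩⟩, hx⟩ := hloc.surj y
  let x' : Γ(M, hV.fromSpec ''ᵁ ⊤) := x
  refine ⟨n, resSec M e₂.ge x', ?_⟩
  have hx' : resSec M (hV.fromSpec.image_mono (le_top : PrimeSpectrum.basicOpen f ≤ ⊤)) x' =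
      (resFun (fromSpec_image_le hV (PrimeSpectrum.basicOpen f)) (f ^ n)) • y := by
    have h := smul_restrict_fromSpec hV M (PrimeSpectrum.basicOpen f) (f ^ n) y
    exact hx.symm.trans h
  have h1 : resSec M (X.basicOpen_le f) (resSec M e₂.ge x') =
      resSec M e₁.ge (resSec M (hV.fromSpec.image_mono
        (le_top : PrimeSpectrum.basicOpen f ≤ ⊤)) x') :=
    (resSec_resSec M _ _ _).trans (resSec_resSec M _ _ _).symm
  have h3 : resSec M e₁.ge y = t := (resSec_resSec M _ _ _).trans (resSec_self M _ _)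
  rw [h1, hx', resSec_smul, h3]
  have h2 : resFun e₁.ge (resFun (fromSpec_image_le hV (PrimeSpectrum.basicOpen f)) (f ^ n)) =
      resFun (X.basicOpen_le f) f ^ n := by
    simp only [resFun]
    rw [← CommRingCat.comp_apply, ← Functor.map_comp, map_pow]
    rfl
  rw [h2]

include hV hM in
/-- **Localisation, injectivity part**: a section over the affine open `V` vanishing on `D(f)`
is killed by a power of `f`. -/
theorem exists_pow_smul_eq_zero (s : Γ(M, V)) (hs : resSec M (X.basicOpen_le f) s = 0) :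
    ∃ n : ℕ, f ^ n • s = 0 := by
  have hloc := isLocalizedModule_restrict_fromSpec hV M f
  have e₁ : hV.fromSpec ''ᵁ PrimeSpectrum.basicOpen f = X.basicOpen f :=
    hV.fromSpec_image_basicOpen f
  have e₂ : hV.fromSpec ''ᵁ ⊤ = V := fromSpec_image_top hV
  let x' : Γ(M, hV.fromSpec ''ᵁ ⊤) := resSec M e₂.le s
  have h0 : resSec M (hV.fromSpec.image_mono (le_top : PrimeSpectrum.basicOpen f ≤ ⊤)) x' = 0 := by
    have : resSec M (hV.fromSpec.image_mono (le_top : PrimeSpectrum.basicOpen f ≤ ⊤)) x' =
        resSec M e₁.le (resSec M (X.basicOpen_le f) s) :=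
      (resSec_resSec M _ _ _).trans (resSec_resSec M _ _ _).symm
    rw [this, hs]
    exact resSec_zero M _
  let x'' : ((modulesSpecToSheaf.obj (M.restrict hV.fromSpec)).obj.obj (op ⊤)) := x'
  have h0' : ((modulesSpecToSheaf.obj (M.restrict hV.fromSpec)).obj.map
      (PrimeSpectrum.basicOpen f).leTop.op).hom x'' =
      ((modulesSpecToSheaf.obj (M.restrict hV.fromSpec)).obj.map
      (PrimeSpectrum.basicOpen f).leTop.op).hom 0 :=
    h0.trans (map_zero _).symm
  obtain ⟨⟨_, n, rfl⟩, hc⟩ := hloc.exists_of_eq h0'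
  refine ⟨n, ?_⟩
  have hc0 : (f ^ n) • x'' = 0 := hc.trans (smul_zero _)
  have hc' : (resFun (fromSpec_image_le hV ⊤) (f ^ n)) • x' = 0 :=
    (smul_restrict_fromSpec hV M ⊤ (f ^ n) x').symm.trans hc0
  have h4 : resFun e₂.ge (resFun (fromSpec_image_le hV ⊤) (f ^ n)) = f ^ n := by
    simp only [resFun]
    rw [← CommRingCat.comp_apply, ← Functor.map_comp]
    have : (homOfLE (fromSpec_image_le hV ⊤)).op ≫ (homOfLE e₂.ge).op = 𝟙 (op V) :=
      Subsingleton.elim _ _
    rw [this, X.presheaf.map_id]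
    rfl
  have h5 : resSec M e₂.ge x' = s := (resSec_resSec M _ _ _).trans (resSec_self M _ _)
  have h2 : resSec M e₂.ge ((resFun (fromSpec_image_le hV ⊤) (f ^ n)) • x') = f ^ n • s := by
    rw [resSec_smul, h4, h5]
  rw [← h2, hc']
  exact resSec_zero M _

variable {M f} in
include hV hM in
/-- Surjectivity part, for an open `D` equal to `D(f)`. -/
theorem exists_pow_smul_eq_res' {D : X.Opens} (hD : D = X.basicOpen f) (hDV : D ≤ V)
    (t : Γ(M, D)) :
    ∃ (n : ℕ) (s : Γ(M, V)), resSec M hDV s = (resFun hDV f) ^ n • t := by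
  subst hD
  exact exists_pow_smul_eq_res hV M f t

variable {M f} in
include hV hM in
/-- Injectivity part, for an open `D` equal to `D(f)`. -/
theorem exists_pow_smul_eq_zero' {D : X.Opens} (hD : D = X.basicOpen f) (hDV : D ≤ V)
    (s : Γ(M, V)) (hs : resSec M hDV s = 0) : ∃ n : ℕ, f ^ n • s = 0 := by
  subst hD
  exact exists_pow_smul_eq_zero hV M f s hs

variable {f} in
/-- `f` is invertible on `D(f)`. -/
theorem isUnit_resFun {D : X.Opens} (hD : D = X.basicOpen f) (hDV : D ≤ V) :
    IsUnit (resFun hDV f) := by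
  subst hD
  exact X.toRingedSpace.isUnit_res_basicOpen f

include hV hM in
/-- **Restriction to `D(f)` is a base change**, in a form with arbitrary coefficient rings:
`θ : R → Γ(X, V)`, `θ' : R' → Γ(X, D)` compatible with restriction, `θ g = f`, `R'` the
localisation of `R` at `g`; the modules `N`, `N'` are identified with `Γ(M, V)`, `Γ(M, D)`
semilinearly and `ρ` corresponds to the restriction map. -/
theorem isBaseChange_of_basicOpen {D : X.Opens} (hD : D = X.basicOpen f) (hDV : D ≤ V)
    {R R' : Type*} [CommRing R] [CommRing R'] [Algebra R R'] (θ : R →+* Γ(X, V))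
    (θ' : R' →+* Γ(X, D)) (hθ : ∀ r, θ' (algebraMap R R' r) = resFun hDV (θ r))
    (g : R) (hg : θ g = f) [IsLocalization (Submonoid.powers g) R']
    {N N' : Type*} [AddCommGroup N] [AddCommGroup N'] [Module R N] [Module R' N'] [Module R N']
    [IsScalarTower R R' N'] (e : Γ(M, V) ≃+ N) (he : ∀ r s, e (θ r • s) = r • e s)
    (e' : Γ(M, D) ≃+ N') (he' : ∀ r s, e' (θ' r • s) = r • e' s)
    (ρ : N →ₗ[R] N') (hρ : ∀ s, ρ (e s) = e' (resSec M hDV s)) :
    IsBaseChange R' ρ := by
  have hsmul' : ∀ (r : R) (y : N'), r • y = e' (resFun hDV (θ r) • e'.symm y) := by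
    intro r y
    rw [← hθ, he', AddEquiv.apply_symm_apply, algebraMap_smul]
  have hpow : ∀ (n : ℕ) (y : N'), (g ^ n) • y = e' ((resFun hDV f) ^ n • e'.symm y) := by
    intro n y
    have : resFun hDV (θ (g ^ n)) = (resFun hDV f) ^ n := by
      rw [map_pow, hg]
      exact map_pow _ _ _
    rw [hsmul', this]
  haveI : IsLocalizedModule (Submonoid.powers g) ρ := by
    refine IsLocalizedModule.mk (fun x => ?_) (fun y => ?_) (fun {x₁ x₂} h => ?_)
    · obtain ⟨_, n, rfl⟩ := x
      obtain ⟨u, hu⟩ := isUnit_resFun (f := f) hD hDV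
      rw [Module.End.isUnit_iff]
      have happ : ∀ z : N', (algebraMap R (Module.End R N') (g ^ n)) z = (g ^ n) • z :=
        fun z => Module.algebraMap_end_apply _ _ _ _ z
      constructor
      · intro y₁ y₂ hy
        have h1 : (g ^ n) • y₁ = (g ^ n) • y₂ := by
          rw [← happ, ← happ]; exact hy
        rw [hpow, hpow] at h1
        have h2 := e'.injective h1
        rw [← hu, ← Units.val_pow_eq_pow_val] at h2
        have h3 := congrArg (fun z => (↑(u ^ n)⁻¹ : Γ(X, D)) • z) h2
        simp only [smul_smul, Units.inv_mul, one_smul] at h3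
        exact e'.symm.injective h3
      · intro y
        refine ⟨e' ((↑(u ^ n)⁻¹ : Γ(X, D)) • e'.symm y), ?_⟩
        rw [happ, hpow, AddEquiv.symm_apply_apply, ← hu, ← Units.val_pow_eq_pow_val, smul_smul,
          Units.mul_inv, one_smul, AddEquiv.apply_symm_apply]
    · obtain ⟨n, s, hs⟩ := exists_pow_smul_eq_res' hV hD hDV (e'.symm y)
      refine ⟨(e s, ⟨g ^ n, n, rfl⟩), ?_⟩
      change (g ^ n) • y = ρ (e s)
      rw [hρ, hs, hpow]
    · have h1 : resSec M hDV (e.symm x₁ - e.symm x₂) = 0 := by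
        have h2 : ρ (e (e.symm x₁)) = ρ (e (e.symm x₂)) := by
          rw [AddEquiv.apply_symm_apply, AddEquiv.apply_symm_apply]; exact h
        rw [hρ, hρ] at h2
        have h3 := e'.injective h2
        rw [resSec, map_sub]
        exact sub_eq_zero.mpr h3
      obtain ⟨n, hn⟩ := exists_pow_smul_eq_zero' hV hD hDV _ h1
      refine ⟨⟨g ^ n, n, rfl⟩, ?_⟩
      change (g ^ n) • x₁ = (g ^ n) • x₂
      have h4 : ∀ x : N, (g ^ n) • x = e (f ^ n • e.symm x) := by
        intro x
        rw [← hg, ← map_pow, he, AddEquiv.apply_symm_apply]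
      rw [h4, h4]
      congr 1
      rw [smul_sub] at hn
      exact sub_eq_zero.mp hn
  exact IsLocalizedModule.isBaseChange (Submonoid.powers g) R' ρ

end Localization

end

end Fermat.Agent.S25.H26
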