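import Fermat.Agent.S25.DefsDict

/-!
# S25 / DICT (helper26): the ring of functions on a chart of `C_A`

For an open `U` of `C` with `i : Γ(C, U) ≃+* B` (compatible with the `k`-structures) we define
`chartHom : A ⊗[k] B →+* Γ(C_A, preimage of U)` and show that it is bijective when `U` is affine.
-/

set_option autoImplicit false
set_option linter.style.haveILetI false
universe u
open CategoryTheory CategoryTheory.Limits AlgebraicGeometry AlgebraicGeometry.RelPicard
  NeronModelInfra
open scoped TensorProduct

namespace Fermat.Agent.S25.H26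

noncomputable section

variable {k : Type u} [Field k] {C : Scheme.{u}} (c : C ⟶ Spec (CommRingCat.of k))
  (A : Type u) [CommRing A] [Algebra k A]

/-- The structure map `k ⟶ Γ(C, U)` in `CommRingCat`. -/
def strHom (U : C.Opens) : CommRingCat.of k ⟶ Γ(C, U) :=
  (Scheme.ΓSpecIso (CommRingCat.of k)).inv ≫ c.appTop ≫
    C.presheaf.map (homOfLE (le_top : U ≤ ⊤)).op

lemma strHom_hom (U : C.Opens) : (strHom c U).hom = sectionsStr c U := rfl

/-- `A ⟶ Γ(C_A, V)` in `CommRingCat`. -/
def baseHom (V : (pullback c (specStr k A)).Opens) :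
    CommRingCat.of A ⟶ Γ(pullback c (specStr k A), V) :=
  (Scheme.ΓSpecIso (CommRingCat.of A)).inv ≫ (pullback.snd c (specStr k A)).appTop ≫
    (pullback c (specStr k A)).presheaf.map (homOfLE (le_top : V ≤ ⊤)).op

lemma baseHom_hom (V : (pullback c (specStr k A)).Opens) :
    (baseHom c A V).hom = baseToSections (c := c) A V := rfl

/-- The square `k → Γ(C, U) → Γ(C_A, pr₁⁻¹ U)`, `k → A → Γ(C_A, pr₁⁻¹ U)` commutes. -/
lemma strHom_comp_app (U : C.Opens) :
    strHom c U ≫ (pullback.fst c (specStr k A)).app U =
      CommRingCat.ofHom (algebraMap k A) ≫ baseHom c A (preimageOpen (c := c) A U) := by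
  have hcond : pullback.fst c (specStr k A) ≫ c =
      pullback.snd c (specStr k A) ≫ specStr k A := pullback.condition
  have h1 : C.presheaf.map (homOfLE (le_top : U ≤ ⊤)).op ≫
      (pullback.fst c (specStr k A)).app U =
      (pullback.fst c (specStr k A)).appTop ≫ (pullback c (specStr k A)).presheaf.map
        (homOfLE (le_top : preimageOpen (c := c) A U ≤ ⊤)).op :=
    (pullback.fst c (specStr k A)).naturality (homOfLE (le_top : U ≤ ⊤)).op
  have h2 : c.appTop ≫ (pullback.fst c (specStr k A)).appTop =
      (specStr k A).appTop ≫ (pullback.snd c (specStr k A)).appTop := by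
    rw [← Scheme.Hom.comp_appTop, ← Scheme.Hom.comp_appTop, hcond]
  have h3 : (Scheme.ΓSpecIso (CommRingCat.of k)).inv ≫ (specStr k A).appTop =
      CommRingCat.ofHom (algebraMap k A) ≫ (Scheme.ΓSpecIso (CommRingCat.of A)).inv :=
    (Scheme.ΓSpecIso_inv_naturality (CommRingCat.ofHom (algebraMap k A))).symm
  unfold strHom baseHom
  simp only [Category.assoc]
  rw [h1, reassoc_of% h2, reassoc_of% h3]

set_option backward.isDefEq.respectTransparency.types false in
variable {c A} in
/-- The preimage in `C_A` of an affine open of `C` is affine. -/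
lemma isAffineOpen_preimageOpen {U : C.Opens} (hU : IsAffineOpen U) :
    IsAffineOpen (preimageOpen (c := c) A U) := by
  have : IsAffineHom (pullback.fst c (specStr k A)) :=
    MorphismProperty.pullback_fst (P := @IsAffineHom) c (specStr k A)
      (inferInstanceAs (IsAffineHom (specStr k A)))
  exact hU.preimage (pullback.fst c (specStr k A))

/-! ### The pushout square (after helper685, `H685/Charts.lean`) -/

section Pushout

variable {c A}

lemma comp_appTop_topIso' {X Y : Scheme.{u}} (f : X ⟶ Y) (U : X.Opens) :
    (U.ι ≫ f).appTop ≫ U.topIso.hom =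
      f.appTop ≫ X.presheaf.map (homOfLE (le_top : U ≤ ⊤)).op := by
  rw [Scheme.Hom.comp_appTop, Category.assoc]
  refine congrArg (f.appTop ≫ ·) ?_
  exact (X.presheaf.map_comp (homOfLE (le_top : U.ι ''ᵁ ⊤ ≤ ⊤)).op
    (eqToHom U.ι_image_top.symm).op).symm

lemma morphismRestrict_appTop_topIso' {X Y : Scheme.{u}} (f : X ⟶ Y) (U : Y.Opens) :
    (f ∣_ U).appTop ≫ (f ⁻¹ᵁ U).topIso.hom = U.topIso.hom ≫ f.app U := by
  have h0 := morphismRestrict_appTop f U
  have hnat := f.naturality (eqToHom U.ι_image_top.symm).op
  have h2 : (f.app (U.ι ''ᵁ ⊤) ≫ X.presheaf.map (eqToHom (by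
      rw [Scheme.Opens.ι_image_top]; simp)).op) ≫
      X.presheaf.map (eqToHom (f ⁻¹ᵁ U).ι_image_top.symm).op =
      Y.presheaf.map (eqToHom U.ι_image_top.symm).op ≫ f.app U := by
    rw [hnat, Category.assoc, ← Functor.map_comp]
    rfl
  exact (congrArg (· ≫ (f ⁻¹ᵁ U).topIso.hom) h0).trans h2

variable (c A) in
/-- The restricted square is a pullback square. -/
lemma isPullback_chart' (U : C.Opens) :
    IsPullback ((pullback.fst c (specStr k A)) ∣_ U)
      ((preimageOpen (c := c) A U).ι ≫ pullback.snd c (specStr k A)) (U.ι ≫ c) (specStr k A) :=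
  ((isPullback_morphismRestrict (pullback.fst c (specStr k A)) U).flip.paste_horiz
    (IsPullback.of_hasPullback c (specStr k A)).flip).flip

variable (c A) in
/-- **F4**: the ring of functions on the chart over an affine open `U` is the pushout of
`Γ(C, U)` and `A` over `k`. -/
theorem isPushout_chart' {U : C.Opens} (hU : IsAffineOpen U) :
    IsPushout (strHom c U) (CommRingCat.ofHom (algebraMap k A))
      ((pullback.fst c (specStr k A)).app U) (baseHom c A (preimageOpen (c := c) A U)) := by
  have : IsAffine U.toScheme := hU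
  have h := isPushout_appTop_of_isPullback (isPullback_chart' c A U)
  refine h.of_iso (Scheme.ΓSpecIso (CommRingCat.of k)) U.topIso
    (Scheme.ΓSpecIso (CommRingCat.of A)) (preimageOpen (c := c) A U).topIso ?_ ?_ ?_ ?_
  · rw [comp_appTop_topIso', strHom, Iso.hom_inv_id_assoc]
  · exact Scheme.ΓSpecIso_naturality (CommRingCat.ofHom (algebraMap k A))
  · exact morphismRestrict_appTop_topIso' _ U
  · rw [comp_appTop_topIso', baseHom, Iso.hom_inv_id_assoc]

end Pushout

/-! ### The comparison map `A ⊗[k] B → Γ(C_A, pr₁⁻¹ U)` -/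

section ChartHom

variable {c} (U : C.Opens) {B : Type u} [CommRing B] [Algebra k B] (i : Γ(C, U) ≃+* B)
  (hi : ∀ a : k, i (sectionsStr c U a) = algebraMap k B a)

/-- The comparison map `A ⊗[k] B → Γ(C_A, pr₁⁻¹ U)`, `a ⊗ b ↦ a · pr₁^*(i⁻¹ b)`. -/
def chartHom : A ⊗[k] B →+* Γ(pullback c (specStr k A), preimageOpen (c := c) A U) :=
  letI algX : Algebra k Γ(pullback c (specStr k A), preimageOpen (c := c) A U) :=
    ((baseToSections (c := c) A (preimageOpen (c := c) A U)).comp (algebraMap k A)).toAlgebra
  let fA : A →ₐ[k] Γ(pullback c (specStr k A), preimageOpen (c := c) A U) :=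
    { baseToSections (c := c) A (preimageOpen (c := c) A U) with commutes' := fun _ => rfl }
  let fB : B →ₐ[k] Γ(pullback c (specStr k A), preimageOpen (c := c) A U) :=
    { (curveToSections (c := c) A U).comp i.symm.toRingHom with
      commutes' := fun r => by
        have h1 : i.symm (algebraMap k B r) = sectionsStr c U r := by
          rw [← hi r, RingEquiv.symm_apply_apply]
        have h2 := congr($(strHom_comp_app c A U) r)
        change curveToSections (c := c) A U (i.symm (algebraMap k B r)) = _
        rw [h1]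
        exact h2 }
  (Algebra.TensorProduct.productMap fA fB).toRingHom

@[simp]
lemma chartHom_tmul (a : A) (b : B) :
    chartHom A U i hi (a ⊗ₜ[k] b) =
      baseToSections (c := c) A (preimageOpen (c := c) A U) a *
        curveToSections (c := c) A U (i.symm b) := by
  unfold chartHom
  simp only [AlgHom.toRingHom_eq_coe, RingHom.coe_coe,
    Algebra.TensorProduct.productMap_apply_tmul]
  rfl

lemma chartHom_tmul_one (a : A) :
    chartHom A U i hi (a ⊗ₜ[k] 1) =
      baseToSections (c := c) A (preimageOpen (c := c) A U) a := by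
  rw [chartHom_tmul, map_one, map_one, mul_one]

lemma chartHom_one_tmul (b : B) :
    chartHom A U i hi (1 ⊗ₜ[k] b) = curveToSections (c := c) A U (i.symm b) := by
  rw [chartHom_tmul, map_one, one_mul]

lemma chartHom_one_tmul_apply (f : Γ(C, U)) :
    chartHom A U i hi (1 ⊗ₜ[k] i f) = curveToSections (c := c) A U f := by
  rw [chartHom_one_tmul, RingEquiv.symm_apply_apply]

set_option maxHeartbeats 800000 in
/-- **The comparison map is bijective over an affine open.** -/
theorem chartHom_bijective (hU : IsAffineOpen U) : Function.Bijective (chartHom A U i hi) := by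
  letI algC : Algebra k Γ(C, U) := (sectionsStr c U).toAlgebra
  have P2 := CommRingCat.isPushout_tensorProduct k Γ(C, U) A
  have P1 := isPushout_chart' c A hU
  have hstr : CommRingCat.ofHom (algebraMap k Γ(C, U)) = strHom c U := rfl
  rw [hstr] at P2
  let J := IsPushout.isoIsPushout _ _ P2 P1
  have hJl : ∀ g : Γ(C, U), J.hom.hom (g ⊗ₜ[k] (1 : A)) =
      curveToSections (c := c) A U g := fun g =>
    congr($(IsPushout.inl_isoIsPushout_hom _ _ P2 P1) g)
  have hJr : ∀ a : A, J.hom.hom ((1 : Γ(C, U)) ⊗ₜ[k] a) =
      baseToSections (c := c) A (preimageOpen (c := c) A U) a := fun a =>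
    congr($(IsPushout.inr_isoIsPushout_hom _ _ P2 P1) a)
  let iL : B ≃ₗ[k] Γ(C, U) :=
    { i.symm.toAddEquiv with
      map_smul' := fun r b => by
        change i.symm (r • b) = (sectionsStr c U r) * i.symm b
        rw [Algebra.smul_def, map_mul, ← hi r, RingEquiv.symm_apply_apply] }
  let φ : A ⊗[k] B ≃ₗ[k] Γ(C, U) ⊗[k] A :=
    (TensorProduct.congr (LinearEquiv.refl k A) iL).trans (TensorProduct.comm k A Γ(C, U))
  have hφ : ∀ (a : A) (b : B), φ (a ⊗ₜ[k] b) = i.symm b ⊗ₜ[k] a := fun a b => rfl
  have key : ∀ x : A ⊗[k] B, chartHom A U i hi x = J.hom.hom (φ x) := by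
    intro x
    induction x using TensorProduct.induction_on with
    | zero => simp
    | tmul a b =>
      rw [chartHom_tmul, hφ]
      have : (i.symm b ⊗ₜ[k] a : Γ(C, U) ⊗[k] A) =
          (i.symm b ⊗ₜ[k] (1 : A)) * ((1 : Γ(C, U)) ⊗ₜ[k] a) := by
        rw [Algebra.TensorProduct.tmul_mul_tmul, mul_one, one_mul]
      rw [this, map_mul, hJl, hJr, mul_comm]
    | add x y hx hy => rw [map_add, map_add, map_add, hx, hy]
  have hJ : Function.Bijective J.hom.hom := ConcreteCategory.bijective_of_isIso J.hom
  have : (chartHom A U i hi : A ⊗[k] B → _) = J.hom.hom ∘ φ := funext key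
  rw [this]
  exact hJ.comp φ.bijective

end ChartHom

section Restriction

variable {c} {U U' : C.Opens}

lemma preimageOpen_mono (h : U' ≤ U) :
    preimageOpen (c := c) A U' ≤ preimageOpen (c := c) A U :=
  Scheme.Hom.preimage_mono _ h

variable (h : U' ≤ U)

lemma baseToSections_res {V V' : (pullback c (specStr k A)).Opens} (hV : V' ≤ V) (a : A) :
    (pullback c (specStr k A)).presheaf.map (homOfLE hV).op (baseToSections (c := c) A V a) =
      baseToSections (c := c) A V' a := by
  unfold baseToSections
  simp only [CommRingCat.hom_comp, RingHom.coe_comp, Function.comp_apply]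
  rw [← CommRingCat.comp_apply, ← Functor.map_comp]
  rfl

lemma curveToSections_res (g : Γ(C, U)) :
    (pullback c (specStr k A)).presheaf.map (homOfLE (preimageOpen_mono A h)).op
        (curveToSections (c := c) A U g) =
      curveToSections (c := c) A U' (resRing h g) := by
  have := (pullback.fst c (specStr k A)).naturality (homOfLE h).op
  exact congr($this g).symm

variable {B B' : Type u} [CommRing B] [Algebra k B] [CommRing B'] [Algebra k B'] [Algebra B B']
  [IsScalarTower k B B']
  (i : Γ(C, U) ≃+* B) (hi : ∀ a : k, i (sectionsStr c U a) = algebraMap k B a)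
  (i' : Γ(C, U') ≃+* B') (hi' : ∀ a : k, i' (sectionsStr c U' a) = algebraMap k B' a)
  (hres : ∀ f : Γ(C, U), i' (resRing h f) = algebraMap B B' (i f))

include hres in
/-- The comparison maps are compatible with restriction. -/
theorem chartHom_res (x : A ⊗[k] B) :
    chartHom A U' i' hi' (tensorMapRight k A B B' x) =
      (pullback c (specStr k A)).presheaf.map (homOfLE (preimageOpen_mono A h)).op
        (chartHom A U i hi x) := by
  induction x using TensorProduct.induction_on with
  | zero => simp
  | tmul a b =>
    have h1 : tensorMapRight k A B B' (a ⊗ₜ[k] b) = a ⊗ₜ[k] algebraMap B B' b := by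
      simp [tensorMapRight]
    have h2 : i'.symm (algebraMap B B' b) = resRing h (i.symm b) := by
      rw [RingEquiv.symm_apply_eq, hres, RingEquiv.apply_symm_apply]
    rw [h1, chartHom_tmul, chartHom_tmul, map_mul, baseToSections_res, curveToSections_res, h2]
  | add x y hx hy => rw [map_add, map_add, map_add, map_add, hx, hy]

end Restriction

end

end Fermat.Agent.S25.H26
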