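import Fermat.Agent.S25.DefsAlg
import Fermat.Agent.S25.H445.InvertibleAffine

/-!
# S25 / DICT (helper26): an isomorphism `f^* N ≅ S` yields a semilinear base change `N → S`
-/

set_option autoImplicit false
set_option linter.style.haveILetI false
universe u
open scoped TensorProduct

namespace Fermat.Agent.S25.H26

open Fermat.Agent.S25

set_option backward.isDefEq.respectTransparency false in
/-- An isomorphism `(extendScalars f).obj N ≅ P` gives an `f`-semilinear base change
`N → P`. -/
theorem exists_isSemilinearBaseChange_of_iso {R S : Type u} [CommRing R] [CommRing S]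
    (f : R →+* S) (N : ModuleCat.{u} R) (P : Type u) [AddCommGroup P] [Module S P]
    (κ : (ModuleCat.extendScalars f).obj N ≅ ModuleCat.of S P) :
    ∃ b : N →ₛₗ[f] P, IsSemilinearBaseChange f b := by
  letI algRS : Algebra R S := f.toAlgebra
  let e : S ⊗[R] N ≃ₗ[S] P :=
    (Fermat.Agent.S25.H445.extendScalarsEquivTensorAux f N).symm ≪≫ₗ κ.toLinearEquiv
  have hsm : ∀ (r : R) (n : N), e ((1 : S) ⊗ₜ[R] (r • n)) = f r • e ((1 : S) ⊗ₜ[R] n) := by
    intro r n
    have h1 : (1 : S) ⊗ₜ[R] (r • n) = f r • ((1 : S) ⊗ₜ[R] n) := by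
      rw [TensorProduct.smul_tmul', ← TensorProduct.smul_tmul]
      rfl
    rw [h1, map_smul]
  let b : N →ₛₗ[f] P :=
    { toFun := fun n => e ((1 : S) ⊗ₜ[R] n)
      map_add' := fun m n => by rw [TensorProduct.tmul_add, map_add]
      map_smul' := hsm }
  refine ⟨b, ?_⟩
  unfold IsSemilinearBaseChange
  letI modRP : Module R P := Module.compHom P f
  haveI towR : IsScalarTower R S P := ⟨fun r r' n => by
    change (f r * r') • n = f r • (r' • n); rw [mul_smul]⟩
  exact IsBaseChange.of_equiv e (fun x => rfl)

end Fermat.Agent.S25.H26
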