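import Fermat.Agent.S25.DefsAlg

/-!
# S25 / DICT (helper26): transport of semilinear base changes along a ring isomorphism of the base
-/

set_option autoImplicit false
set_option linter.style.haveILetI false
universe u

namespace Fermat.Agent.S25.H26

open Fermat.Agent.S25

/-- Let `θ : R₁ → R` be a bijective ring homomorphism, `ψ : R → S` a ring homomorphism and
`ρ = ψ ∘ θ`. If `b₀ : N → P` is a `ψ`-semilinear base change and `u : N₁ ≃+ N` is
`θ`-semilinear, then `b = b₀ ∘ u` is a `ρ`-semilinear base change. -/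
theorem isSemilinearBaseChange_of_bijective {R₁ R S : Type u} [CommRing R₁] [CommRing R]
    [CommRing S] (θ : R₁ →+* R) (hθ : Function.Bijective θ) (ψ : R →+* S) (ρ : R₁ →+* S)
    (hρ : ∀ r, ρ r = ψ (θ r)) {N₁ N P : Type u} [AddCommGroup N₁] [Module R₁ N₁]
    [AddCommGroup N] [Module R N] [AddCommGroup P] [Module S P] (v : N₁ ≃+ N)
    (hv : ∀ (r : R₁) (n : N₁), v (r • n) = θ r • v n) (b₀ : N →ₛₗ[ψ] P)
    (hb₀ : IsSemilinearBaseChange ψ b₀) (b : N₁ →ₛₗ[ρ] P) (hb : ∀ n, b n = b₀ (v n)) :
    IsSemilinearBaseChange ρ b := by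
  unfold IsSemilinearBaseChange at hb₀ ⊢
  letI algRS : Algebra R S := ψ.toAlgebra
  letI algR₁S : Algebra R₁ S := ρ.toAlgebra
  letI modRP : Module R P := Module.compHom P ψ
  letI modR₁P : Module R₁ P := Module.compHom P ρ
  haveI towR : IsScalarTower R S P := ⟨fun r r' n => by
    change (ψ r * r') • n = ψ r • (r' • n); rw [mul_smul]⟩
  haveI towR₁ : IsScalarTower R₁ S P := ⟨fun r r' n => by
    change (ρ r * r') • n = ρ r • (r' • n); rw [mul_smul]⟩
  apply IsBaseChange.of_lift_unique
  intro Q _ _ _ _ g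
  -- make `Q` an `R`-module through `ψ`
  letI modRQ : Module R Q := Module.compHom Q ψ
  haveI towRQ : IsScalarTower R S Q := ⟨fun r r' n => by
    change (ψ r * r') • n = ψ r • (r' • n); rw [mul_smul]⟩
  have hR₁Q : ∀ (r : R₁) (q : Q), r • q = ρ r • q := fun r q => by
    rw [← algebraMap_smul S r q]; rfl
  have hvs : ∀ (r : R) (n : N), v.symm (r • n) = (Function.invFun θ r) • v.symm n := by
    intro r n
    apply v.injective
    rw [hv, AddEquiv.apply_symm_apply, AddEquiv.apply_symm_apply,
      Function.rightInverse_invFun hθ.2 r]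
  let g₀ : N →ₗ[R] Q :=
    { toFun := fun n => g (v.symm n)
      map_add' := fun m n => by rw [map_add, map_add]
      map_smul' := fun r n => by
        simp only [RingHom.id_apply]
        rw [hvs, map_smul, hR₁Q, hρ, Function.rightInverse_invFun hθ.2 r]
        rfl }
  refine ⟨hb₀.lift g₀, ?_, ?_⟩
  · ext n
    simp only [LinearMap.coe_comp, LinearMap.coe_restrictScalars, Function.comp_apply]
    change hb₀.lift g₀ (b n) = g n
    rw [hb]
    have := hb₀.lift_eq g₀ (v n)
    refine this.trans ?_
    change g (v.symm (v n)) = g n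
    rw [AddEquiv.symm_apply_apply]
  · intro g' hg'
    apply hb₀.algHom_ext
    intro n
    rw [hb₀.lift_eq]
    have h1 := congrArg (fun F => F (v.symm n)) hg'
    simp only [LinearMap.coe_comp, LinearMap.coe_restrictScalars, Function.comp_apply] at h1
    change g' (b (v.symm n)) = g (v.symm n) at h1
    rw [hb, AddEquiv.apply_symm_apply] at h1
    exact h1

end Fermat.Agent.S25.H26
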