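import Fermat.Agent.S25.H26.ChartRing
import Fermat.Agent.S25.H26.AffineInvertible
import Fermat.Agent.S25.H26.TransportBC
import Fermat.Agent.S25.H26.ExtendScalarsBC
import Fermat.Agent.S25.H205.Box

/-!
# S25 / DICT (helper26): the gluing datum of sections of a rigidified bundle is rigidifiable
-/

set_option autoImplicit false
set_option linter.style.haveILetI false
universe u
open CategoryTheory CategoryTheory.Limits AlgebraicGeometry AlgebraicGeometry.RelPicard
  NeronModelInfra
open scoped TensorProduct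

namespace Fermat.Agent.S25.H26

noncomputable section

variable {k : Type u} [Field k] {C : Scheme.{u}} {c : C ⟶ Spec (CommRingCat.of k)}
  {ε : SchemeHomOver (𝟙 (Spec (CommRingCat.of k))) c}
  (A : Type u) [CommRing A] [Algebra k A]

section Section

variable (c ε)

/-- The rigidifying section `Spec A ⟶ C_A`. -/
abbrev sigma : Spec (CommRingCat.of A) ⟶ pullback c (specStr k A) :=
  rigSection c (specStr k A) ε

variable {c ε}

lemma sigma_fst : sigma c ε A ≫ pullback.fst c (specStr k A) = specStr k A ≫ ε.1 :=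
  Fermat.Agent.S25.H205.rigSection_fst c (specStr k A) ε

lemma sigma_snd : sigma c ε A ≫ pullback.snd c (specStr k A) = 𝟙 _ :=
  Fermat.Agent.S25.H205.rigSection_snd c (specStr k A) ε

/-- The section lands in the preimage of any open containing the marked point. -/
lemma sigma_preimage {U : C.Opens} (hU : ε.1 ⁻¹ᵁ U = ⊤) :
    sigma c ε A ⁻¹ᵁ preimageOpen (c := c) A U = ⊤ := by
  change sigma c ε A ⁻¹ᵁ (pullback.fst c (specStr k A) ⁻¹ᵁ U) = ⊤
  rw [← Scheme.Hom.comp_preimage, sigma_fst, Scheme.Hom.comp_preimage, hU]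
  rfl

variable (c ε) in
/-- Evaluation of functions on the chart over `U` along the rigidifying section. -/
def evalHom (U : C.Opens) (hU : ε.1 ⁻¹ᵁ U = ⊤) :
    Γ(pullback c (specStr k A), preimageOpen (c := c) A U) ⟶ CommRingCat.of A :=
  (sigma c ε A).appLE (preimageOpen (c := c) A U) ⊤ (sigma_preimage A hU).ge ≫
    (Scheme.ΓSpecIso (CommRingCat.of A)).hom

lemma id_appLE_top (Y : Scheme.{u}) (e : (⊤ : Y.Opens) ≤ (𝟙 Y) ⁻¹ᵁ ⊤) :
    (𝟙 Y : Y ⟶ Y).appLE ⊤ ⊤ e = 𝟙 _ := by
  simp only [Scheme.Hom.appLE, Scheme.Hom.id_app]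
  exact Y.presheaf.map_id _

lemma evalHom_baseToSections (U : C.Opens) (hU : ε.1 ⁻¹ᵁ U = ⊤) (a : A) :
    evalHom c ε A U hU (baseToSections (c := c) A (preimageOpen (c := c) A U) a) = a := by
  have h2 : (pullback c (specStr k A)).presheaf.map
      (homOfLE (le_top : preimageOpen (c := c) A U ≤ ⊤)).op ≫
      (sigma c ε A).appLE (preimageOpen (c := c) A U) ⊤ (sigma_preimage A hU).ge =
      (sigma c ε A).appLE ⊤ ⊤ le_top :=
    Scheme.Hom.map_appLE _ _ _
  have h3 : (pullback.snd c (specStr k A)).appTop ≫ (sigma c ε A).appLE ⊤ ⊤ le_top =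
      (sigma c ε A ≫ pullback.snd c (specStr k A)).appLE ⊤ ⊤ le_top :=
    (Scheme.Hom.comp_appLE (sigma c ε A) (pullback.snd c (specStr k A)) ⊤ ⊤ le_top).symm
  have h4 : (sigma c ε A ≫ pullback.snd c (specStr k A)).appLE ⊤ ⊤ le_top = 𝟙 _ :=
    (Fermat.Agent.S25.H205.appLE_congr_hom (sigma_snd A) ⊤ ⊤ le_top).trans (id_appLE_top _ _)
  have h1 : baseHom c A (preimageOpen (c := c) A U) ≫ evalHom c ε A U hU = 𝟙 _ := by
    unfold baseHom evalHom
    simp only [Category.assoc]
    rw [reassoc_of% h2, reassoc_of% h3, h4, Category.id_comp, Iso.inv_hom_id]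
  exact congr($h1 a)

lemma evalHom_curveToSections (U : C.Opens) (hU : ε.1 ⁻¹ᵁ U = ⊤) (g : Γ(C, U)) :
    evalHom c ε A U hU (curveToSections (c := c) A U g) =
      algebraMap k A (evalAt c ε U hU g) := by
  have e1 : (⊤ : (Spec (CommRingCat.of A)).Opens) ≤
      (sigma c ε A ≫ pullback.fst c (specStr k A)) ⁻¹ᵁ U := by
    rw [Scheme.Hom.comp_preimage]; exact (sigma_preimage A hU).ge
  have h2 : (pullback.fst c (specStr k A)).app U ≫
      (sigma c ε A).appLE (preimageOpen (c := c) A U) ⊤ (sigma_preimage A hU).ge =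
      (sigma c ε A ≫ pullback.fst c (specStr k A)).appLE U ⊤ e1 :=
    (Scheme.Hom.comp_appLE (sigma c ε A) (pullback.fst c (specStr k A)) U ⊤ e1).symm
  have h3 : (sigma c ε A ≫ pullback.fst c (specStr k A)).appLE U ⊤ e1 =
      (specStr k A ≫ ε.1).appLE U ⊤ (sigma_fst (c := c) (ε := ε) A ▸ e1) :=
    Fermat.Agent.S25.H205.appLE_congr_hom (sigma_fst A) U ⊤ e1
  have h4 : ε.1.appLE U ⊤ (le_of_eq hU.symm) ≫ (specStr k A).appLE ⊤ ⊤ le_top =
      (specStr k A ≫ ε.1).appLE U ⊤ (sigma_fst (c := c) (ε := ε) A ▸ e1) :=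
    Scheme.Hom.appLE_comp_appLE _ _ _ _ _ _ _
  have h5 : (specStr k A).appLE ⊤ ⊤ le_top ≫ (Scheme.ΓSpecIso (CommRingCat.of A)).hom =
      (Scheme.ΓSpecIso (CommRingCat.of k)).hom ≫ CommRingCat.ofHom (algebraMap k A) := by
    have := Scheme.ΓSpecIso_naturality (CommRingCat.ofHom (algebraMap k A))
    rw [← this]
    congr 1
  have h1 : (pullback.fst c (specStr k A)).app U ≫ evalHom c ε A U hU =
      (ε.1.appLE U ⊤ (le_of_eq hU.symm) ≫ (Scheme.ΓSpecIso (CommRingCat.of k)).hom) ≫
        CommRingCat.ofHom (algebraMap k A) := by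
    unfold evalHom
    rw [reassoc_of% h2, h3, ← h4, Category.assoc, h5, Category.assoc]
  exact congr($h1 g)

end Section

section Chart

open Fermat.Agent.S25

variable (Ch : ChartOf c ε)

/-- **Ring identity**: evaluation along the rigidifying section corresponds to `epsHom`. -/
theorem evalHom_chartHom (r : A ⊗[k] Ch.B₁) :
    evalHom c ε A Ch.U₁ Ch.eps_mem (chartHom A Ch.U₁ Ch.i₁ Ch.i₁_str r) = epsHom Ch.e A r := by
  induction r using TensorProduct.induction_on with
  | zero => simp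
  | tmul a b =>
    rw [chartHom_tmul, map_mul, evalHom_baseToSections, evalHom_curveToSections, ← Ch.e_eq,
      RingEquiv.apply_symm_apply]
    simp [epsHom, Algebra.ofId_apply]
  | add x y hx hy => rw [map_add, map_add, map_add, hx, hy]

/-- **Factorisation** of the rigidifying section through the affine chart over `U₁`. -/
theorem specMap_evalHom_fromSpec (hV : IsAffineOpen (preimageOpen (c := c) A Ch.U₁)) :
    Spec.map (evalHom c ε A Ch.U₁ Ch.eps_mem) ≫ hV.fromSpec = sigma c ε A := by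
  have h1 := IsAffineOpen.SpecMap_appLE_fromSpec (sigma c ε A) hV
    (isAffineOpen_top (Spec (CommRingCat.of A))) (sigma_preimage A Ch.eps_mem).ge
  rw [IsAffineOpen.fromSpec_top, Scheme.isoSpec_Spec_inv] at h1
  unfold evalHom
  rw [Spec.map_comp, Category.assoc, h1, ← Category.assoc, ← Spec.map_comp, Iso.inv_hom_id,
    Spec.map_id, Category.id_comp]

section Tilde

variable (L : (pullback c (specStr k A)).Modules) (hL : Scheme.Modules.IsInvertible L)
  (ρ : (Scheme.Modules.pullback (sigma c ε A)).obj L ≅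
    SheafOfModules.unit (Spec (CommRingCat.of A)).ringCatSheaf)

include hL ρ in
/-- The abstract isomorphism `A ⊗ Γ(L|V₁) ≅ A` produced by the rigidification. -/
theorem nonempty_extendScalars_iso (hV : IsAffineOpen (preimageOpen (c := c) A Ch.U₁)) :
    Nonempty ((ModuleCat.extendScalars (evalHom c ε A Ch.U₁ Ch.eps_mem).hom).obj
        ((moduleSpecΓFunctor (R := Γ(pullback c (specStr k A),
          preimageOpen (c := c) A Ch.U₁))).obj (L.restrict hV.fromSpec)) ≅
      ModuleCat.of A A) := by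
  have hF : Scheme.Modules.IsInvertible (L.restrict hV.fromSpec) :=
    isInvertible_restrict L hV.fromSpec hL
  let ψ := evalHom c ε A Ch.U₁ Ch.eps_mem
  let N := (moduleSpecΓFunctor (R := Γ(pullback c (specStr k A),
          preimageOpen (c := c) A Ch.U₁))).obj (L.restrict hV.fromSpec)
  let chain : tilde ((ModuleCat.extendScalars ψ.hom).obj N) ≅
      tilde (ModuleCat.of (CommRingCat.of A) (CommRingCat.of A)) :=
    (Fermat.Agent.S25.H445.pullbackTildeObjIso ψ N).symm ≪≫
      (Scheme.Modules.pullback (Spec.map ψ)).mapIso (Fermat.Agent.S25.H445.isoTildeΓ hF) ≪≫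
      (Scheme.Modules.pullback (Spec.map ψ)).mapIso
        ((Scheme.Modules.restrictFunctorIsoPullback hV.fromSpec).app L) ≪≫
      (Scheme.Modules.pullbackComp (Spec.map ψ) hV.fromSpec).app L ≪≫
      (Scheme.Modules.pullbackCongr (specMap_evalHom_fromSpec A Ch hV)).app L ≪≫ ρ ≪≫
      tildeSelf.symm
  exact ⟨tilde.fullyFaithfulFunctor.preimageIso chain⟩

include hL ρ in
/-- **Rigidifiability**: the sections of a rigidified line bundle over the chart `V₁` have an
`epsHom`-semilinear base change to `A`. -/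
theorem exists_rigidification :
    letI : Module (A ⊗[k] Ch.B₁) Γ(L, preimageOpen (c := c) A Ch.U₁) :=
      Module.compHom _ (chartHom A Ch.U₁ Ch.i₁ Ch.i₁_str)
    ∃ b : Γ(L, preimageOpen (c := c) A Ch.U₁) →ₛₗ[(epsHom Ch.e A).toRingHom] A,
      IsSemilinearBaseChange _ b := by
  letI m₁ : Module (A ⊗[k] Ch.B₁) Γ(L, preimageOpen (c := c) A Ch.U₁) :=
    Module.compHom _ (chartHom A Ch.U₁ Ch.i₁ Ch.i₁_str)
  have hV : IsAffineOpen (preimageOpen (c := c) A Ch.U₁) :=
    isAffineOpen_preimageOpen Ch.isAffine₁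
  obtain ⟨κ⟩ := nonempty_extendScalars_iso A Ch L hL ρ hV
  obtain ⟨b₀, hb₀⟩ := exists_isSemilinearBaseChange_of_iso
    (evalHom c ε A Ch.U₁ Ch.eps_mem).hom _ A κ
  let θ := chartHom A Ch.U₁ Ch.i₁ Ch.i₁_str
  have hθ : Function.Bijective θ := chartHom_bijective A Ch.U₁ Ch.i₁ Ch.i₁_str Ch.isAffine₁
  have hρ : ∀ r, (epsHom Ch.e A).toRingHom r = (evalHom c ε A Ch.U₁ Ch.eps_mem).hom (θ r) :=
    fun r => (evalHom_chartHom A Ch r).symm
  let v : Γ(L, preimageOpen (c := c) A Ch.U₁) ≃+
      ((moduleSpecΓFunctor (R := Γ(pullback c (specStr k A),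
          preimageOpen (c := c) A Ch.U₁))).obj (L.restrict hV.fromSpec)) :=
    (topSecEquiv hV L).symm
  have hv : ∀ (r : A ⊗[k] Ch.B₁) (n : Γ(L, preimageOpen (c := c) A Ch.U₁)),
      v (r • n) = θ r • v n := by
    intro r n
    apply (topSecEquiv hV L).injective
    refine Eq.trans ?_ (topSecEquiv_smul hV L (θ r) (v n)).symm
    change (topSecEquiv hV L) ((topSecEquiv hV L).symm (r • n)) =
      θ r • (topSecEquiv hV L) ((topSecEquiv hV L).symm n)
    rw [AddEquiv.apply_symm_apply, AddEquiv.apply_symm_apply]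
    rfl
  let b : Γ(L, preimageOpen (c := c) A Ch.U₁) →ₛₗ[(epsHom Ch.e A).toRingHom] A :=
    { toFun := fun n => b₀ (v n)
      map_add' := fun m n => by rw [map_add, map_add]
      map_smul' := fun r n => by
        rw [hv, LinearMap.map_smulₛₗ, hρ] }
  exact ⟨b, isSemilinearBaseChange_of_bijective θ hθ (evalHom c ε A Ch.U₁ Ch.eps_mem).hom
    (epsHom Ch.e A).toRingHom hρ v hv b₀ hb₀ b (fun _ => rfl)⟩

end Tilde

end Chart

end

end Fermat.Agent.S25.H26
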