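import Fermat.Agent.S25.H26.ChartRing
import Fermat.Agent.S25.H26.AffineInvertible
import Fermat.Agent.S25.H26.Rigid

/-!
# S25 / DICT (helper26): `Stmt.DictSections`

Every rigidified line bundle on `C_A` has a gluing datum of sections, and it is rigidifiable.
-/

set_option autoImplicit false
set_option linter.style.haveILetI false
universe u
open CategoryTheory CategoryTheory.Limits AlgebraicGeometry AlgebraicGeometry.RelPicard
  NeronModelInfra
open scoped TensorProduct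

namespace Fermat.Agent.S25.H26

noncomputable section

variable {k : Type u} [Field k] {C : Scheme.{u}} {c : C ⟶ Spec (CommRingCat.of k)}
  {ε : SchemeHomOver (𝟙 (Spec (CommRingCat.of k))) c} (Ch : ChartOf c ε)
  (A : Type u) [CommRing A] [Algebra k A]

/-- `i₀₁` is compatible with the `k`-structures. -/
lemma i₀₁_str (a : k) :
    Ch.i₀₁ (sectionsStr c (Ch.U₀ ⊓ Ch.U₁) a) = algebraMap k Ch.B₀₁ a := by
  have h0 : strHom c (Ch.U₀ ⊓ Ch.U₁) =
      strHom c Ch.U₀ ≫ C.presheaf.map (homOfLE (inf_le_left : Ch.U₀ ⊓ Ch.U₁ ≤ Ch.U₀)).op := by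
    unfold strHom
    rw [Category.assoc, Category.assoc, ← Functor.map_comp]
    rfl
  have h : sectionsStr c (Ch.U₀ ⊓ Ch.U₁) a = resRing inf_le_left (sectionsStr c Ch.U₀ a) :=
    congr($h0 a)
  rw [h, Ch.i₀₁_res₀, Ch.i₀_str, ← IsScalarTower.algebraMap_apply]

/-- The three comparison maps. -/
abbrev θ₀ := chartHom A Ch.U₀ Ch.i₀ Ch.i₀_str
abbrev θ₁ := chartHom A Ch.U₁ Ch.i₁ Ch.i₁_str
abbrev θ₀₁ := chartHom A (Ch.U₀ ⊓ Ch.U₁) Ch.i₀₁ (i₀₁_str Ch)

lemma isAffineOpen_inf : IsAffineOpen (Ch.U₀ ⊓ Ch.U₁) := by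
  rw [Ch.inf_eq₀]
  exact Ch.isAffine₀.basicOpen _

variable (L : (pullback c (specStr k A)).Modules)

/-- Restriction maps of `L` between the chart opens, as additive maps. -/
abbrev resAdd {U U' : C.Opens} (h : U' ≤ U) :
    Γ(L, preimageOpen (c := c) A U) →+ Γ(L, preimageOpen (c := c) A U') :=
  resMod L (preimageOpen_mono A h)

lemma resAdd_smul {U U' : C.Opens} (h : U' ≤ U)
    (g : Γ(pullback c (specStr k A), preimageOpen (c := c) A U))
    (n : Γ(L, preimageOpen (c := c) A U)) :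
    resAdd A L h (g • n) =
      ((pullback c (specStr k A)).presheaf.map (homOfLE (preimageOpen_mono A h)).op g) •
        resAdd A L h n :=
  resSec_smul L (preimageOpen_mono A h) g n

section TensorAway

open Fermat.Agent.S25

/-- `A ⊗[k] B'` is the localisation of `A ⊗[k] B` at `1 ⊗ x` when `B'` is the localisation of
`B` at `x`. -/
lemma isLocalization_tensor_away {B B' : Type u} [CommRing B] [CommRing B'] [Algebra k B]
    [Algebra k B'] [Algebra B B'] [IsScalarTower k B B'] (x : B)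
    (hx : IsLocalization.Away x B') :
    IsLocalization (Submonoid.powers ((1 : A) ⊗ₜ[k] x)) (A ⊗[k] B') := by
  haveI : IsLocalization (Submonoid.powers x) B' := hx
  have H : (algebraMap (A ⊗[k] B) (A ⊗[k] B')).comp
      (Algebra.TensorProduct.includeRight (R := k) (A := A) (B := B)).toRingHom =
      (Algebra.TensorProduct.includeRight (R := k) (A := A) (B := B')).toRingHom.comp
        (algebraMap B B') := by
    ext b
    change tensorMapRight k A B B' ((1 : A) ⊗ₜ[k] b) = (1 : A) ⊗ₜ[k] algebraMap B B' b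
    simp [tensorMapRight]
  have h := IsLocalization.tensorProduct_tensorProduct_right k A (Submonoid.powers x) B' H
  rwa [Submonoid.map_powers] at h

end TensorAway

section Skeleton

open Fermat.Agent.S25

/-- The gluing datum of sections of an invertible module `L` on `C_A` with a rigidification
along the marked section: it corresponds to `L` and is rigidifiable. -/
theorem exists_glueDatum_of_rigidified (hL : Scheme.Modules.IsInvertible L)
    (ρ : (Scheme.Modules.pullback (sigma c ε A)).obj L ≅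
      SheafOfModules.unit (Spec (CommRingCat.of A)).ringCatSheaf) :
    ∃ G : CurveGD k Ch.B₀ Ch.B₁ Ch.B₀₁ A, Corr Ch A L G ∧ G.Rigidifiable Ch.e := by
  letI m₀ : Module (A ⊗[k] Ch.B₀) Γ(L, preimageOpen (c := c) A Ch.U₀) :=
    Module.compHom _ (θ₀ Ch A)
  letI m₁ : Module (A ⊗[k] Ch.B₁) Γ(L, preimageOpen (c := c) A Ch.U₁) :=
    Module.compHom _ (θ₁ Ch A)
  letI m₀₁ : Module (A ⊗[k] Ch.B₀₁) Γ(L, preimageOpen (c := c) A (Ch.U₀ ⊓ Ch.U₁)) :=
    Module.compHom _ (θ₀₁ Ch A)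
  letI mL : Module (A ⊗[k] Ch.B₀) Γ(L, preimageOpen (c := c) A (Ch.U₀ ⊓ Ch.U₁)) :=
    Module.compHom _ ((θ₀₁ Ch A).comp (algebraMap (A ⊗[k] Ch.B₀) (A ⊗[k] Ch.B₀₁)))
  letI mR : Module (A ⊗[k] Ch.B₁) Γ(L, preimageOpen (c := c) A (Ch.U₀ ⊓ Ch.U₁)) :=
    Module.compHom _ ((θ₀₁ Ch A).comp (algebraMap (A ⊗[k] Ch.B₁) (A ⊗[k] Ch.B₀₁)))
  letI b₀ : Module A Γ(L, preimageOpen (c := c) A Ch.U₀) :=
    Module.compHom _ ((θ₀ Ch A).comp (algebraMap A (A ⊗[k] Ch.B₀)))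
  letI b₁ : Module A Γ(L, preimageOpen (c := c) A Ch.U₁) :=
    Module.compHom _ ((θ₁ Ch A).comp (algebraMap A (A ⊗[k] Ch.B₁)))
  letI b₀₁ : Module A Γ(L, preimageOpen (c := c) A (Ch.U₀ ⊓ Ch.U₁)) :=
    Module.compHom _ ((θ₀₁ Ch A).comp (algebraMap A (A ⊗[k] Ch.B₀₁)))
  have tL : IsScalarTower (A ⊗[k] Ch.B₀) (A ⊗[k] Ch.B₀₁)
      Γ(L, preimageOpen (c := c) A (Ch.U₀ ⊓ Ch.U₁)) := ⟨fun r r' n => by
    change (θ₀₁ Ch A) (r • r') • n = _
    rw [Algebra.smul_def, map_mul, mul_smul]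
    rfl⟩
  have tR : IsScalarTower (A ⊗[k] Ch.B₁) (A ⊗[k] Ch.B₀₁)
      Γ(L, preimageOpen (c := c) A (Ch.U₀ ⊓ Ch.U₁)) := ⟨fun r r' n => by
    change (θ₀₁ Ch A) (r • r') • n = _
    rw [Algebra.smul_def, map_mul, mul_smul]
    rfl⟩
  have bt₀ : IsScalarTower A (A ⊗[k] Ch.B₀) Γ(L, preimageOpen (c := c) A Ch.U₀) :=
    ⟨fun r r' n => by
      change (θ₀ Ch A) (r • r') • n = _
      rw [Algebra.smul_def, map_mul, mul_smul]
      rfl⟩
  have bt₁ : IsScalarTower A (A ⊗[k] Ch.B₁) Γ(L, preimageOpen (c := c) A Ch.U₁) :=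
    ⟨fun r r' n => by
      change (θ₁ Ch A) (r • r') • n = _
      rw [Algebra.smul_def, map_mul, mul_smul]
      rfl⟩
  have bt₀₁ : IsScalarTower A (A ⊗[k] Ch.B₀₁) Γ(L, preimageOpen (c := c) A (Ch.U₀ ⊓ Ch.U₁)) :=
    ⟨fun r r' n => by
      change (θ₀₁ Ch A) (r • r') • n = _
      rw [Algebra.smul_def, map_mul, mul_smul]
      rfl⟩
  have hres₀ : ∀ (r : A ⊗[k] Ch.B₀), θ₀₁ Ch A (algebraMap (A ⊗[k] Ch.B₀) (A ⊗[k] Ch.B₀₁) r) =
      (pullback c (specStr k A)).presheaf.map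
        (homOfLE (preimageOpen_mono A (inf_le_left : Ch.U₀ ⊓ Ch.U₁ ≤ Ch.U₀))).op (θ₀ Ch A r) :=
    fun r => chartHom_res A inf_le_left Ch.i₀ Ch.i₀_str Ch.i₀₁ (i₀₁_str Ch) Ch.i₀₁_res₀ r
  have hres₁ : ∀ (r : A ⊗[k] Ch.B₁), θ₀₁ Ch A (algebraMap (A ⊗[k] Ch.B₁) (A ⊗[k] Ch.B₀₁) r) =
      (pullback c (specStr k A)).presheaf.map
        (homOfLE (preimageOpen_mono A (inf_le_right : Ch.U₀ ⊓ Ch.U₁ ≤ Ch.U₁))).op (θ₁ Ch A r) :=
    fun r => chartHom_res A inf_le_right Ch.i₁ Ch.i₁_str Ch.i₀₁ (i₀₁_str Ch) Ch.i₀₁_res₁ r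
  let r₀ : Γ(L, preimageOpen (c := c) A Ch.U₀) →ₗ[A ⊗[k] Ch.B₀]
      Γ(L, preimageOpen (c := c) A (Ch.U₀ ⊓ Ch.U₁)) :=
    { toFun := resAdd A L (inf_le_left : Ch.U₀ ⊓ Ch.U₁ ≤ Ch.U₀)
      map_add' := map_add _
      map_smul' := fun r n =>
        (resAdd_smul A L inf_le_left (θ₀ Ch A r) n).trans
          (congrArg (· • resAdd A L (inf_le_left : Ch.U₀ ⊓ Ch.U₁ ≤ Ch.U₀) n) (hres₀ r).symm) }
  let r₁ : Γ(L, preimageOpen (c := c) A Ch.U₁) →ₗ[A ⊗[k] Ch.B₁]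
      Γ(L, preimageOpen (c := c) A (Ch.U₀ ⊓ Ch.U₁)) :=
    { toFun := resAdd A L (inf_le_right : Ch.U₀ ⊓ Ch.U₁ ≤ Ch.U₁)
      map_add' := map_add _
      map_smul' := fun r n =>
        (resAdd_smul A L inf_le_right (θ₁ Ch A r) n).trans
          (congrArg (· • resAdd A L (inf_le_right : Ch.U₀ ⊓ Ch.U₁ ≤ Ch.U₁) n) (hres₁ r).symm) }
  haveI hq : L.IsQuasicoherent := Fermat.Agent.S25.H445.isQuasicoherent_of_isInvertible hL
  have hbc₀ : IsBaseChange (A ⊗[k] Ch.B₀₁) r₀ := by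
    haveI := isLocalization_tensor_away (k := k) A Ch.x Ch.isCurveChart.away₀
    refine isBaseChange_of_basicOpen (isAffineOpen_preimageOpen Ch.isAffine₀) L
      (θ₀ Ch A (1 ⊗ₜ[k] Ch.x)) ?_ (preimageOpen_mono A inf_le_left) (θ₀ Ch A) (θ₀₁ Ch A) hres₀
      (1 ⊗ₜ[k] Ch.x) rfl (AddEquiv.refl _) (fun _ _ => rfl) (AddEquiv.refl _) (fun _ _ => rfl)
      r₀ (fun _ => rfl)
    rw [chartHom_one_tmul]
    exact (congrArg (preimageOpen (c := c) A) Ch.inf_eq₀).trans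
      (Scheme.preimage_basicOpen _ _)
  have hbc₁ : IsBaseChange (A ⊗[k] Ch.B₀₁) r₁ := by
    haveI := isLocalization_tensor_away (k := k) A Ch.y Ch.isCurveChart.away₁
    refine isBaseChange_of_basicOpen (isAffineOpen_preimageOpen Ch.isAffine₁) L
      (θ₁ Ch A (1 ⊗ₜ[k] Ch.y)) ?_ (preimageOpen_mono A inf_le_right) (θ₁ Ch A) (θ₀₁ Ch A) hres₁
      (1 ⊗ₜ[k] Ch.y) rfl (AddEquiv.refl _) (fun _ _ => rfl) (AddEquiv.refl _) (fun _ _ => rfl)
      r₁ (fun _ => rfl)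
    rw [chartHom_one_tmul]
    exact (congrArg (preimageOpen (c := c) A) Ch.inf_eq₁).trans
      (Scheme.preimage_basicOpen _ _)
  have hinv₀ : Module.Invertible (A ⊗[k] Ch.B₀) Γ(L, preimageOpen (c := c) A Ch.U₀) :=
    invertible_of_sections (isAffineOpen_preimageOpen Ch.isAffine₀) L hL (θ₀ Ch A)
      (chartHom_bijective A Ch.U₀ Ch.i₀ Ch.i₀_str Ch.isAffine₀) (AddEquiv.refl _)
      (fun _ _ => rfl)
  have hinv₁ : Module.Invertible (A ⊗[k] Ch.B₁) Γ(L, preimageOpen (c := c) A Ch.U₁) :=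
    invertible_of_sections (isAffineOpen_preimageOpen Ch.isAffine₁) L hL (θ₁ Ch A)
      (chartHom_bijective A Ch.U₁ Ch.i₁ Ch.i₁_str Ch.isAffine₁) (AddEquiv.refl _)
      (fun _ _ => rfl)
  let G : CurveGD k Ch.B₀ Ch.B₁ Ch.B₀₁ A :=
    { N₀ := Γ(L, preimageOpen (c := c) A Ch.U₀)
      N₁ := Γ(L, preimageOpen (c := c) A Ch.U₁)
      N₀₁ := Γ(L, preimageOpen (c := c) A (Ch.U₀ ⊓ Ch.U₁))
      module₀ := m₀
      module₁ := m₁
      module₀₁ := m₀₁
      moduleL := mL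
      moduleR := mR
      towerL := tL
      towerR := tR
      baseModule₀ := b₀
      baseModule₁ := b₁
      baseModule₀₁ := b₀₁
      baseTower₀ := bt₀
      baseTower₁ := bt₁
      baseTower₀₁ := bt₀₁
      r₀ := r₀
      r₁ := r₁
      isBaseChange₀ := hbc₀
      isBaseChange₁ := hbc₁
      invertible₀ := hinv₀
      invertible₁ := hinv₁ }
  refine ⟨G, ⟨AddEquiv.refl _, AddEquiv.refl _, AddEquiv.refl _, ⟨?_, ?_⟩, ⟨?_, ?_⟩, ⟨?_, ?_⟩,
    fun s => rfl, fun s => rfl⟩, exists_rigidification A Ch L hL ρ⟩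
  · intro a s
    exact congrArg (· • s) (chartHom_tmul_one A Ch.U₀ Ch.i₀ Ch.i₀_str a).symm
  · intro f s
    exact congrArg (· • s) (chartHom_one_tmul_apply A Ch.U₀ Ch.i₀ Ch.i₀_str f).symm
  · intro a s
    exact congrArg (· • s) (chartHom_tmul_one A Ch.U₁ Ch.i₁ Ch.i₁_str a).symm
  · intro f s
    exact congrArg (· • s) (chartHom_one_tmul_apply A Ch.U₁ Ch.i₁ Ch.i₁_str f).symm
  · intro a s
    exact congrArg (· • s) (chartHom_tmul_one A (Ch.U₀ ⊓ Ch.U₁) Ch.i₀₁ (i₀₁_str Ch) a).symm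
  · intro f s
    exact congrArg (· • s)
      (chartHom_one_tmul_apply A (Ch.U₀ ⊓ Ch.U₁) Ch.i₀₁ (i₀₁_str Ch) f).symm

end Skeleton

section Main

open Fermat.Agent.S25

/-- **DICT-SEC** (`Stmt.DictSections`): every rigidified line bundle on `C_A` has a gluing
datum of sections, and it is rigidifiable. -/
theorem dictSections : Stmt.DictSections Ch := by
  intro A _ _ M
  obtain ⟨ρ⟩ := M.rigidified
  exact exists_glueDatum_of_rigidified Ch A M.L M.isInvertible ρ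

end Main

end

end Fermat.Agent.S25.H26
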